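import Fermat.Agent.S36.H438.UnitRed

/-!
# S59 moonshot, cell (C) LO-SQ, leaf GUB4 / ORD12 — the abstract half (helper550)

* `aeval_jqModC_eq_zero550` : `p(j) = 0` in `K((t))` forces `p = 0` (`j` is transcendental).
* `exists_hasse_lift550` : for a prime `q ≥ 5` the Hasse polynomial has an integral
  factorisation `H = X^{4δ} (X - 1728)^{6ε} F¹² + q G` in `ℤ[X]`.
* `mem_sup_pow_twelve550` : the ideal-theoretic core.  In a commutative ring `B` with a prime
  ideal `n ⊇ p`:  `D ∈ n`, `D ≡ H(j) mod p`, `q ∈ p`,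
  `H(j) = j^{4δ} (j - 1728)^{6ε} F¹² + q G`, `j v = g³`, `(j - 1728) v = h²`, `v` a unit
  `⟹ D ∈ p ⊔ n¹²`.
-/

set_option autoImplicit false

noncomputable section

namespace Fermat.Agent.S59.LoSqC.H550

open ModularCurve Polynomial
open Fermat.Agent.S28 Fermat.Agent.S36.H438 Fermat.Agent.S36.Reg

/-- `j` is transcendental: `p(j) = 0` in `K((t))` forces `p = 0`. -/
theorem aeval_jqModC_eq_zero550 (K : Type*) [CommRing K] (p : Polynomial K)
    (h : Polynomial.aeval (jqModC K) p = 0) : p = 0 := by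
  by_contra hp
  have h1 := coeff_aeval_jqModC_of_le K p (le_refl p.natDegree)
  rw [h, HahnSeries.coeff_zero] at h1
  exact hp (Polynomial.leadingCoeff_eq_zero.mp h1.symm)

/-- An integral polynomial vanishing modulo `q` is divisible by `q`. -/
theorem exists_eq_C_mul_of_map_eq_zero550 (q : ℕ) (Z : Polynomial ℤ)
    (h : Z.map (Int.castRingHom (ZMod q)) = 0) : ∃ G : Polynomial ℤ, Z = C (q : ℤ) * G := by
  have hdvd : C (q : ℤ) ∣ Z := by
    rw [Polynomial.C_dvd_iff_dvd_coeff]
    intro i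
    have h1 := congrArg (fun s => s.coeff i) h
    simp only [Polynomial.coeff_map, Polynomial.coeff_zero, eq_intCast] at h1
    exact (ZMod.intCast_zmod_eq_zero_iff_dvd _ _).mp h1
  exact hdvd

/-- **The integral Hasse factorisation**: `H = X^{4δ} (X - 1728)^{6ε} F¹² + q G` in `ℤ[X]`. -/
theorem exists_hasse_lift550 (q : ℕ) [NeZero q] (hq : q.Prime) (h5 : 5 ≤ q) :
    ∃ F G : Polynomial ℤ,
      hassePoly q hq = X ^ (4 * hasseDelta q) * (X - C 1728) ^ (6 * hasseEps q) * F ^ 12
        + C (q : ℤ) * G := by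
  have hfact : Fact q.Prime := ⟨hq⟩
  obtain ⟨f, hf⟩ := Fermat.Agent.S36.Reg.H968.hasse q hq h5
  obtain ⟨F, hF⟩ := Polynomial.map_surjective (Int.castRingHom (ZMod q))
    (ZMod.intCast_surjective) f
  have hred := hassePoly_red q hq (ZMod q)
  set Z : Polynomial ℤ :=
    hassePoly q hq - X ^ (4 * hasseDelta q) * (X - C 1728) ^ (6 * hasseEps q) * F ^ 12 with hZ
  have hZ0 : Z.map (Int.castRingHom (ZMod q)) = 0 := by
    apply aeval_jqModC_eq_zero550
    rw [hZ, Polynomial.map_sub, Polynomial.map_mul, Polynomial.map_mul, Polynomial.map_pow,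
      Polynomial.map_pow, Polynomial.map_pow, Polynomial.map_sub, Polynomial.map_X,
      Polynomial.map_C, hF, map_sub, map_mul, map_mul, map_pow, map_pow, map_pow, map_sub,
      Polynomial.aeval_X, Polynomial.aeval_C, ← hred, hf]
    have e : (algebraMap (ZMod q) (LaurentSeries (ZMod q)))
        ((Int.castRingHom (ZMod q)) 1728) = 1728 := by
      rw [map_ofNat, map_ofNat]
    rw [e, sub_self]
  obtain ⟨G, hG⟩ := exists_eq_C_mul_of_map_eq_zero550 q Z hZ0
  refine ⟨F, G, ?_⟩
  rw [← hG, hZ]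
  ring

/-- **The ideal-theoretic core of ORD12.** -/
theorem mem_sup_pow_twelve550 {B : Type*} [CommRing B] (p n : Ideal B) [hn : n.IsPrime]
    (hpn : p ≤ n) (δ ε : ℕ)
    (D Hj j F G g h u v qB : B)
    (hDn : D ∈ n) (hDH : D - Hj ∈ p) (hq : qB ∈ p)
    (hH : Hj = j ^ (4 * δ) * (j - 1728) ^ (6 * ε) * F ^ 12 + qB * G)
    (huv : u * v = 1) (hj : j * v = g ^ 3) (hj' : (j - 1728) * v = h ^ 2) :
    D ∈ p ⊔ n ^ 12 := by
  set T : B := j ^ (4 * δ) * (j - 1728) ^ (6 * ε) * F ^ 12 with hT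
  have hD : D = (D - Hj + qB * G) + T := by rw [hH]; ring
  have hTn : T ∈ n := by
    have h1 : T = D - (D - Hj + qB * G) := by rw [hH]; ring
    rw [h1]
    exact n.sub_mem hDn (n.add_mem (hpn hDH) (hpn (p.mul_mem_right _ hq)))
  have hju : j = u * g ^ 3 := by
    rw [← hj]
    linear_combination (-j) * huv
  have hju' : j - 1728 = u * h ^ 2 := by
    rw [← hj']
    linear_combination (-(j - 1728)) * huv
  have hT12 : T ∈ n ^ 12 := by
    rcases hn.mem_or_mem hTn with h1 | h1
    · rcases hn.mem_or_mem h1 with h2 | h2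
      · -- `j ^ (4 δ) ∈ n`
        have hjn : j ∈ n := hn.mem_of_pow_mem _ h2
        have hgn : g ∈ n := by
          have : g ^ 3 ∈ n := by rw [← hj]; exact n.mul_mem_right _ hjn
          exact hn.mem_of_pow_mem _ this
        have hδ : δ ≠ 0 := by
          rintro rfl
          rw [mul_zero, pow_zero] at h2
          exact hn.ne_top ((Ideal.eq_top_iff_one n).mpr h2)
        obtain ⟨d, rfl⟩ := Nat.exists_eq_succ_of_ne_zero hδ
        have e : T = (g ^ 12) * (u ^ 4 * j ^ (4 * d) * (j - 1728) ^ (6 * ε) * F ^ 12) := by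
          rw [hT]
          have : j ^ (4 * (d + 1)) = j ^ (4 * d) * (u * g ^ 3) ^ 4 := by
            rw [← hju]; ring
          rw [this]; ring
        rw [e]
        exact Ideal.mul_mem_right _ _ (Ideal.pow_mem_pow hgn 12)
      · -- `(j - 1728) ^ (6 ε) ∈ n`
        have hjn : j - 1728 ∈ n := hn.mem_of_pow_mem _ h2
        have hhn : h ∈ n := by
          have : h ^ 2 ∈ n := by rw [← hj']; exact n.mul_mem_right _ hjn
          exact hn.mem_of_pow_mem _ this
        have hε : ε ≠ 0 := by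
          rintro rfl
          rw [mul_zero, pow_zero] at h2
          exact hn.ne_top ((Ideal.eq_top_iff_one n).mpr h2)
        obtain ⟨d, rfl⟩ := Nat.exists_eq_succ_of_ne_zero hε
        have e : T = (h ^ 12) * (u ^ 6 * j ^ (4 * δ) * (j - 1728) ^ (6 * d) * F ^ 12) := by
          rw [hT]
          have : (j - 1728) ^ (6 * (d + 1)) = (j - 1728) ^ (6 * d) * (u * h ^ 2) ^ 6 := by
            rw [← hju']; ring
          rw [this]; ring
        rw [e]
        exact Ideal.mul_mem_right _ _ (Ideal.pow_mem_pow hhn 12)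
    · -- `F ^ 12 ∈ n`
      have hFn : F ∈ n := hn.mem_of_pow_mem _ h1
      rw [hT]
      exact Ideal.mul_mem_left _ _ (Ideal.pow_mem_pow hFn 12)
  rw [hD]
  exact Ideal.add_mem _
    (Ideal.mem_sup_left (p.add_mem hDH (p.mul_mem_right _ hq)))
    (Ideal.mem_sup_right hT12)

end Fermat.Agent.S59.LoSqC.H550

end
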