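import Fermat.Agent.S59.H807.GubSpec
import Fermat.Agent.S59.LoSqC.H550.Ord12Abs
import Fermat.Agent.S36.H994.T4E
import Fermat.Agent.S36.H994.Chart4
import Fermat.Agent.A2.Mod.H553.Fricke

/-!
# S59 moonshot, cell (C) LO-SQ, leaf GUB4 / ORD12 (helper550, independent 2nd owner)

`ord12_h550 : H807.Ord12Statement P E M q w` VERBATIM (interface of helper807,
`S59/H807/GubSpec.lean`):  level `M * q`, `4 ∣ M`, `5 ≤ q`; at every node `n` of the finite chart
`B` of `x = j · j_q` the modular unit `D = q¹² Δ(t^q)/Δ(t)` lies in `p₂ + n¹²`.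

Proof.  `D ∈ p₁ ⊆ n` (`D = q¹² · unit` along `C∞`), `D ≡ H(j_q) mod p₂`
(`H438.dE_sub_hasse_mem_cut`), `H = X^{4δ} (X - 1728)^{6ε} F¹² + q G` (`exists_hasse_lift550`),
and `j_q = u g³`, `j_q - 1728 = u h²` with `u = (τ⁴ (τ + 16))⁻¹ ∈ B`, `τ = β(t₄)`
(`H994.jE_mul_t4E` transported by `β`; `τ`, `τ + 16` are units of `B` since `2⁻¹ ∈ R_E`).
Then `mem_sup_pow_twelve550`.
-/

set_option autoImplicit false
set_option linter.unusedSectionVars false
set_option linter.unusedVariables false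
set_option linter.style.haveILetI false
set_option synthInstance.maxHeartbeats 400000
set_option maxHeartbeats 1600000

noncomputable section

namespace Fermat.Agent.S59.LoSqC.H550

open ModularCurve Polynomial
open Fermat.Agent.A2.Mod Fermat.Agent.S36.H803 Fermat.Agent.S36.H438 Fermat.Agent.S36.H994
open Fermat.Agent.S36.Reg

/-- `q ∈ 𝔪_V`, `q` odd ⟹ `2⁻¹ ∈ V`. -/
theorem two_inv_mem550 {L : Type*} [Field L] [CharZero L] (V : ValuationSubring L) {q : ℕ}
    (hq : ((q : ℕ) : L) ∈ V.nonunits) (hodd : q % 2 = 1) : (2 : L)⁻¹ ∈ V := by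
  rw [ValuationSubring.mem_nonunits_iff] at hq
  have h2V : V.valuation (2 : L) ≤ 1 :=
    (ValuationSubring.valuation_le_one_iff V _).mpr (by exact_mod_cast natCast_mem V 2)
  have hkV : V.valuation ((q / 2 : ℕ) : L) ≤ 1 :=
    (ValuationSubring.valuation_le_one_iff V _).mpr (natCast_mem V _)
  have h1 : (1 : L) = ((q : ℕ) : L) - 2 * ((q / 2 : ℕ) : L) := by
    have h := Nat.div_add_mod q 2
    rw [hodd] at h
    have h' : ((q : ℕ) : L) = 2 * ((q / 2 : ℕ) : L) + 1 := by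
      conv_lhs => rw [← h]
      push_cast
      ring
    rw [h']
    ring
  have hge : ¬ V.valuation (2 : L) < 1 := by
    intro hlt
    have h3 : V.valuation (2 * ((q / 2 : ℕ) : L)) < 1 := by
      rw [map_mul]
      calc V.valuation (2 : L) * V.valuation ((q / 2 : ℕ) : L)
          ≤ V.valuation (2 : L) * 1 := mul_le_mul_right hkV _
        _ = V.valuation (2 : L) := mul_one _
        _ < 1 := hlt
    have h4 : V.valuation (1 : L) < 1 := by
      rw [h1]
      exact lt_of_le_of_lt (Valuation.map_sub _ _ _) (max_lt hq h3)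
    rw [map_one] at h4
    exact lt_irrefl _ h4
  have h2eq : V.valuation (2 : L) = 1 := le_antisymm h2V (not_lt.mp hge)
  rw [← ValuationSubring.valuation_le_one_iff, map_inv₀, h2eq, inv_one]

variable (P : ValuationSubring Qb) (E : IntermediateField ℚ Qb) (M q : ℕ) [NeZero M] [NeZero q]
  (w : RE P E)

/-- `2⁻¹` lies in the finite chart when `q` is odd. -/
theorem two_inv_mem_bfin550 (hlies : P.LiesOverPrime q) (hodd : q % 2 = 1) :
    (2 : FE E (M * q))⁻¹ ∈ Bfin P E M q := by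
  have hP : (2 : Qb)⁻¹ ∈ P := two_inv_mem550 P hlies hodd
  have hE : ((2 : E))⁻¹ ∈ RE P E := by
    show algebraMap E Qb ((2 : E))⁻¹ ∈ P
    rw [map_inv₀, map_ofNat]
    exact hP
  have h := Subalgebra.algebraMap_mem (Bfin P E M q) (⟨(2 : E)⁻¹, hE⟩ : RE P E)
  have e : algebraMap (RE P E) (FE E (M * q)) (⟨(2 : E)⁻¹, hE⟩ : RE P E)
      = (2 : FE E (M * q))⁻¹ := by
    show algebraMap E (FE E (M * q)) ((2 : E)⁻¹) = _
    rw [map_inv₀, map_ofNat]
  rwa [e] at h

/-- `β(j) = j_q`. -/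
theorem βE_jE_one550 :
    βE E M q (jE E M 1 (one_dvd _)) = jE E (M * q) q (dvd_mul_left q M) := by
  apply Subtype.ext
  show qExpand (↥E) q (coeffEmb (↥E) (qExpand ℚ 1 jq)) = coeffEmb (↥E) (qExpand ℚ q jq)
  rw [qExpand_one_apply, coeffEmb, ← coeffMap_qExpand]

/-- The level-4 relation for `j_q`: `j_q τ⁴ (τ + 16) = (τ² + 256 τ + 4096)³`, `τ = β(t₄)`. -/
theorem jq_mul_tau550 (h4 : 4 ∣ M) :
    jE E (M * q) q (dvd_mul_left q M)
        * ((βE E M q (t4E E M h4)) ^ 4 * (βE E M q (t4E E M h4) + 16))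
      = ((βE E M q (t4E E M h4)) ^ 2 + 256 * βE E M q (t4E E M h4) + 4096) ^ 3 := by
  have h := congrArg (βE E M q) (jE_mul_t4E E M h4)
  simp only [map_mul, map_pow, map_add, map_ofNat] at h
  rw [βE_jE_one550] at h
  exact h

/-- `(j_q - 1728) τ⁴ (τ + 16) = ((τ + 32) (τ² - 512 τ - 8192))²`. -/
theorem jq_sub_mul_tau550 (h4 : 4 ∣ M) :
    (jE E (M * q) q (dvd_mul_left q M) - 1728)
        * ((βE E M q (t4E E M h4)) ^ 4 * (βE E M q (t4E E M h4) + 16))
      = ((βE E M q (t4E E M h4) + 32)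
          * ((βE E M q (t4E E M h4)) ^ 2 - 512 * βE E M q (t4E E M h4) - 8192)) ^ 2 := by
  have h := congrArg (βE E M q) (jE_sub_1728_mul_t4E E M h4)
  simp only [map_mul, map_pow, map_add, map_sub, map_ofNat] at h
  rw [βE_jE_one550] at h
  rw [h]
  ring

/-- `q ∈ w · V'` for every valuation ring `V'` containing the constants of `R_E`. -/
theorem natCast_inW550 (hwq : w ∣ (q : RE P E)) (hw0 : (w : E) ≠ 0)
    (V' : ValuationSubring (FE E (M * q)))
    (hV' : ∀ r : RE P E, cE P E (M * q) r ∈ V') :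
    InW P E (M * q) V' w ((q : ℕ) : FE E (M * q)) := by
  obtain ⟨r, hr⟩ := hwq
  have hqE : (q : E) = (w : E) * (r : E) := by
    have := congrArg (fun z : RE P E => (z : E)) hr
    simpa using this
  have hcw : cE P E (M * q) w ≠ 0 :=
    (map_ne_zero_iff _ (algebraMap E (FE E (M * q))).injective).mpr hw0
  have hcq : ((q : ℕ) : FE E (M * q)) = cE P E (M * q) w * cE P E (M * q) r := by
    rw [cE, cE, ← map_mul, ← hqE, map_natCast]
  show ((q : ℕ) : FE E (M * q)) * (cE P E (M * q) w)⁻¹ ∈ V'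
  rw [hcq, mul_comm (cE P E (M * q) w), mul_assoc, mul_inv_cancel₀ hcw, mul_one]
  exact hV' r

/-- **ORD12**, VERBATIM. -/
theorem ord12_h550 : Fermat.Agent.S59.H807.Ord12Statement P E M q w := by
  intro hyp h4 h5 D hD p₁ p₂ hcomp n hnode
  obtain ⟨V, W, hV, hW, hc₁, hc₂⟩ := hcomp
  obtain ⟨hmax, hp1n, hp2n⟩ := hnode
  have hq : q.Prime := hyp.setting.q_prime
  have hwq : w ∣ (q : RE P E) := unif_dvd_natCast P E hyp.setting
  have hw0 : (w : E) ≠ 0 := Fermat.Agent.A2.Mod.H378.w_ne_zero hyp.setting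
  haveI hnp : n.IsPrime := hmax.isPrime
  -- `q` is odd
  have hodd : q % 2 = 1 := by
    rcases hq.eq_two_or_odd with h | h
    · omega
    · exact h
  -- the elements of the chart
  have hjqB := (jE_mem_chartAlg P E q M hq).2
  have h2B := two_inv_mem_bfin550 P E M q hyp.setting.lies_over hodd
  have hrel := jq_mul_tau550 E M q h4
  have hrel' := jq_sub_mul_tau550 E M q h4
  have hτB : βE E M q (t4E E M h4) ∈ Bfin P E M q :=
    mem_chart_of_rel4 (R := RE P E) ({xE E M q} : Set (FE E (M * q))) hjqB hrel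
  have hτi : (βE E M q (t4E E M h4))⁻¹ ∈ Bfin P E M q :=
    inv_mem_of_rel4 (Bfin P E M q) hjqB hτB h2B hrel
  have hτi' : (βE E M q (t4E E M h4) + 16)⁻¹ ∈ Bfin P E M q :=
    add_inv_mem_of_rel4 (Bfin P E M q) hjqB hτB h2B hrel
  have hτ0 : βE E M q (t4E E M h4) ≠ 0 := ne_zero_of_rel4 hrel
  have hτ0' : βE E M q (t4E E M h4) + 16 ≠ 0 := add_ne_zero_of_rel4 hrel
  set jqB : Bfin P E M q := ⟨_, hjqB⟩ with hjqBdef
  set τB : Bfin P E M q := ⟨_, hτB⟩ with hτBdef
  set τiB : Bfin P E M q := ⟨_, hτi⟩ with hτiBdef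
  set τiB' : Bfin P E M q := ⟨_, hτi'⟩ with hτiBdef'
  -- the integral Hasse factorisation
  obtain ⟨F, G, hFG⟩ := exists_hasse_lift550 q hq h5
  -- `D = dE`
  have hDB : D = ⟨dE E (M * q) q (dvd_mul_left q M), dE_mem_chartAlg P E M q hq⟩ := by
    apply Subtype.ext
    apply Subtype.ext
    exact hD.trans (coe_dE E (M * q) q (dvd_mul_left q M)).symm
  -- `H(j_q)` in the chart
  have hHB : (⟨Polynomial.aeval (jE E (M * q) q (dvd_mul_left q M)) (hassePoly q hq),
      aeval_jqE_mem_chartAlg P E q M hq _⟩ : Bfin P E M q)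
      = Polynomial.aeval jqB (hassePoly q hq) := by
    apply Subtype.ext
    exact (map_aeval_int (Bfin P E M q).val.toRingHom jqB (hassePoly q hq)).symm
  have hcut := dE_sub_hasse_mem_cut P E q M hq w hwq W hV hW p₂ hc₂
  rw [← hDB, hHB] at hcut
  -- `q ∈ p₂`
  have hqp₂ : ((q : ℕ) : Bfin P E M q) ∈ p₂ := by
    rw [hc₂]
    refine natCast_inW550 P E M q w hwq hw0 _ (fun r => ?_)
    show W (cE P E (M * q) r) ∈ V
    rw [cE, AlgEquiv.commutes]
    exact Fermat.Agent.A2.Mod.H378.cE_mem hV r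
  -- `D ∈ p₁`
  have hDp₁ : D ∈ p₁ := by
    rw [hc₁, hDB]
    have h1 := natCast_inW550 P E M q w hwq hw0 V (fun r => Fermat.Agent.A2.Mod.H378.cE_mem hV r)
    have h2 : ((q : ℕ) : FE E (M * q)) ^ 11 * uE E (M * q) q (dvd_mul_left q M) ∈ V :=
      V.mul_mem _ _ (pow_mem (natCast_mem V q) 11)
        (uE_mem_vinf P E (M * q) q (dvd_mul_left q M) hV)
    have h3 := V.mul_mem _ _ h1 h2
    show dE E (M * q) q (dvd_mul_left q M) * (cE P E (M * q) w)⁻¹ ∈ V
    have e : dE E (M * q) q (dvd_mul_left q M) * (cE P E (M * q) w)⁻¹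
        = ((q : ℕ) : FE E (M * q)) * (cE P E (M * q) w)⁻¹
          * (((q : ℕ) : FE E (M * q)) ^ 11 * uE E (M * q) q (dvd_mul_left q M)) := by
      rw [dE, map_pow, map_natCast]
      ring
    rw [e]
    exact h3
  refine mem_sup_pow_twelve550 p₂ n hp2n (hasseDelta q) (hasseEps q) D
    (Polynomial.aeval jqB (hassePoly q hq)) jqB (Polynomial.aeval jqB F)
    (Polynomial.aeval jqB G)
    (τB ^ 2 + 256 * τB + 4096) ((τB + 32) * (τB ^ 2 - 512 * τB - 8192))
    (τiB ^ 4 * τiB') (τB ^ 4 * (τB + 16)) ((q : ℕ) : Bfin P E M q)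
    (hp1n hDp₁) hcut hqp₂ ?_ ?_ ?_ ?_
  · rw [hFG]
    simp only [map_add, map_mul, map_pow, map_sub, Polynomial.aeval_X, map_ofNat, map_natCast]
  · apply Subtype.ext
    show ((βE E M q (t4E E M h4))⁻¹ ^ 4 * (βE E M q (t4E E M h4) + 16)⁻¹)
      * ((βE E M q (t4E E M h4)) ^ 4 * (βE E M q (t4E E M h4) + 16)) = 1
    field_simp
  · apply Subtype.ext
    exact hrel
  · apply Subtype.ext
    exact hrel'

end Fermat.Agent.S59.LoSqC.H550

end
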